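import Mathlib

/-!
# S55 / REC leaf R1a: cyclotomic polynomials of `p`-power order are irreducible over `ℚ_[p]`

and the norm of `ζ - 1` from `ℚ_p(ζ_{p^m})` to `ℚ_p` is `p` (so `p` is a norm from every layer of
the cyclotomic `ℤ_p`-tower).
-/

set_option autoImplicit false

open Polynomial

namespace Fermat.Agent.S55.H481

variable (p : ℕ) [hp : Fact p.Prime]

/-- `Φ_{p^(n+1)}(X+1)` is Eisenstein at `(p)` over `ℤ_[p]`. -/
theorem cyclotomic_comp_X_add_one_isEisensteinAt_padicInt (n : ℕ) :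
    ((cyclotomic (p ^ (n + 1)) ℤ_[p]).comp (X + 1)).IsEisensteinAt
      (Ideal.span {(p : ℤ_[p])}) := by
  have h := cyclotomic_prime_pow_comp_X_add_one_isEisensteinAt p n
  have hmap : (((cyclotomic (p ^ (n + 1)) ℤ).comp (X + 1)).map (Int.castRingHom ℤ_[p]))
      = (cyclotomic (p ^ (n + 1)) ℤ_[p]).comp (X + 1) := by
    rw [Polynomial.map_comp, map_cyclotomic]
    simp
  have hmonic : ((cyclotomic (p ^ (n + 1)) ℤ).comp (X + 1)).Monic := by
    rw [show (X + 1 : ℤ[X]) = X + C 1 by simp]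
    refine (cyclotomic.monic _ ℤ).comp (monic_X_add_C 1) fun h => ?_
    rw [natDegree_X_add_C] at h
    exact zero_ne_one h.symm
  rw [← hmap]
  refine Monic.isEisensteinAt_of_mem_of_notMem (hmonic.map _) ?_ ?_ ?_
  · intro htop
    rw [Ideal.span_singleton_eq_top] at htop
    exact PadicInt.prime_p.not_isUnit htop
  · intro i hi
    rw [hmonic.natDegree_map] at hi
    have := h.mem hi
    rw [Ideal.submodule_span_eq, Ideal.mem_span_singleton] at this
    obtain ⟨c, hc⟩ := this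
    rw [coeff_map, hc, Ideal.mem_span_singleton]
    exact ⟨(c : ℤ_[p]), by simp⟩
  · rw [coeff_map]
    have h0 := h.notMem
    intro hmem
    apply h0
    rw [Ideal.submodule_span_eq, Ideal.span_singleton_pow, Ideal.mem_span_singleton] at *
    rw [eq_intCast (Int.castRingHom ℤ_[p]), PadicInt.pow_p_dvd_int_iff] at hmem
    exact_mod_cast hmem

/-- The cyclotomic polynomial `Φ_{p^(n+1)}` is irreducible over `ℤ_[p]`. -/
theorem cyclotomic_irreducible_padicInt (n : ℕ) :
    Irreducible (cyclotomic (p ^ (n + 1)) ℤ_[p]) := by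
  have hE := cyclotomic_comp_X_add_one_isEisensteinAt_padicInt p n
  have hprime : (Ideal.span {(p : ℤ_[p])}).IsPrime :=
    (Ideal.span_singleton_prime (PadicInt.prime_p.ne_zero)).2 PadicInt.prime_p
  have hmonic : ((cyclotomic (p ^ (n + 1)) ℤ_[p]).comp (X + 1)).Monic := by
    rw [show (X + 1 : ℤ_[p][X]) = X + C 1 by simp]
    refine (cyclotomic.monic _ _).comp (monic_X_add_C 1) fun h => ?_
    rw [natDegree_X_add_C] at h
    exact zero_ne_one h.symm
  have hirr : Irreducible ((cyclotomic (p ^ (n + 1)) ℤ_[p]).comp (X + 1)) := by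
    refine hE.irreducible hprime hmonic.isPrimitive ?_
    rw [natDegree_comp, show (X + 1 : ℤ_[p][X]) = X + C 1 by simp, natDegree_X_add_C, mul_one,
      natDegree_cyclotomic]
    exact Nat.totient_pos.2 (pow_pos hp.out.pos _)
  -- undo the shift
  have key : (algEquivAevalXAddC (1 : ℤ_[p])) (cyclotomic (p ^ (n + 1)) ℤ_[p])
      = (cyclotomic (p ^ (n + 1)) ℤ_[p]).comp (X + 1) := by
    simp [algEquivAevalXAddC, aeval_def, eval₂_eq_eval_map, comp]
  rw [← key] at hirr
  exact (MulEquiv.irreducible_iff (algEquivAevalXAddC (1 : ℤ_[p]))).1 hirr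

/-- The cyclotomic polynomial `Φ_{p^(n+1)}` is irreducible over `ℚ_[p]`. -/
theorem cyclotomic_irreducible_padic (n : ℕ) :
    Irreducible (cyclotomic (p ^ (n + 1)) ℚ_[p]) := by
  have h := cyclotomic_irreducible_padicInt p n
  rw [(cyclotomic.monic _ ℤ_[p]).irreducible_iff_irreducible_map_fraction_map (K := ℚ_[p])] at h
  rwa [map_cyclotomic] at h

/-- `p` is a norm from `ℚ_p(ζ_{p^(n+1)})`: the norm of `ζ - 1` is `p` (`p` odd). -/
theorem norm_zeta_sub_one_padic (hp2 : p ≠ 2) (n : ℕ) {L : Type*} [Field L] [Algebra ℚ_[p] L]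
    [IsCyclotomicExtension {p ^ (n + 1)} ℚ_[p] L] {ζ : L}
    (hζ : IsPrimitiveRoot ζ (p ^ (n + 1))) :
    Algebra.norm ℚ_[p] (ζ - 1) = (p : ℚ_[p]) :=
  hζ.norm_sub_one_of_prime_ne_two (cyclotomic_irreducible_padic p n) hp2

end Fermat.Agent.S55.H481
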